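/-
S20 (G2) helper: linear algebra. Eigenvectors grouped in classes.
-/
import Mathlib.LinearAlgebra.Eigenspace.Basic
import Mathlib.LinearAlgebra.DFinsupp
import Mathlib.Analysis.Complex.Basic

set_option autoImplicit false

namespace Fermat.Agent.S20

/-- A family of eigenvectors of `T`, such that the eigenvalue is an injective function of a class
and each class is linearly independent, is linearly independent. -/
lemma H69_li_of_eigen {V : Type*} [AddCommGroup V] [Module ℂ V] (T : Module.End ℂ V)
    {J C : Type*} (v : J → V) (cls : J → C) (E : C → ℂ)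
    (hT : ∀ j, T (v j) = E (cls j) • v j)
    (hE : ∀ j j', E (cls j) = E (cls j') → cls j = cls j')
    (hclass : ∀ r : C, LinearIndependent ℂ (fun j : {j // cls j = r} => v j)) :
    LinearIndependent ℂ v := by
  classical
  rw [linearIndependent_iff']
  intro s c hsum j hj
  have hind := (iSupIndep_iff_finsetSum_eq_zero_imp_eq_zero _).mp T.eigenspaces_iSupIndep
  set u : ℂ → V := fun e => ∑ i ∈ s.filter (fun i => E (cls i) = e), c i • v i with hu
  have hu_mem : ∀ e, u e ∈ T.eigenspace e := by
    intro e
    refine Submodule.sum_mem _ fun i hi => ?_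
    rw [Finset.mem_filter] at hi
    refine Submodule.smul_mem _ _ ?_
    rw [Module.End.mem_eigenspace_iff, hT i, hi.2]
  have hu_sum : ∑ e ∈ s.image (fun i => E (cls i)), u e = 0 := by
    rw [← hsum]
    exact Finset.sum_fiberwise_of_maps_to (fun i hi => Finset.mem_image_of_mem _ hi) _
  have hu0 : u (E (cls j)) = 0 :=
    hind (s.image (fun i => E (cls i))) u (fun e _ => hu_mem e) hu_sum (E (cls j))
      (Finset.mem_image_of_mem _ hj)
  have hcl := hclass (cls j)
  rw [linearIndependent_iff'] at hcl
  -- the finset of the subtype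
  set s' : Finset {i // cls i = cls j} := (s.filter (fun i => E (cls i) = E (cls j))).subtype _
    with hs'
  have hsum' : ∑ i ∈ s', c i.1 • v i.1 = 0 := by
    rw [hs', Finset.sum_subtype_eq_sum_filter (f := fun i => c i • v i)]
    rw [Finset.filter_filter]
    rw [← hu0, hu]
    refine Finset.sum_congr ?_ fun _ _ => rfl
    ext i
    simp only [Finset.mem_filter]
    constructor
    · rintro ⟨hi, h1, -⟩
      exact ⟨hi, h1⟩
    · rintro ⟨hi, h1⟩
      exact ⟨hi, h1, hE i j h1⟩
  have := hcl s' (fun i => c i.1) hsum' ⟨j, rfl⟩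
    (by rw [hs', Finset.mem_subtype]; exact Finset.mem_filter.mpr ⟨hj, rfl⟩)
  exact this

end Fermat.Agent.S20
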