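/-
S20 (G2) helper: the core argument for linear independence of evaluation vectors.
-/
import Fermat.Agent.S20.Gens
import Fermat.Agent.S20.Division

set_option autoImplicit false
set_option linter.unusedSectionVars false

namespace Fermat.Agent.S20

open UpperHalfPlane hiding I
open ModularForm CongruenceSubgroup Filter Topology Complex
open scoped MatrixGroups ModularForm Manifold Real

namespace Gens

variable {N : ℕ} [NeZero N] (𝔊 : Gens N)

/-- all translates of `f` vanish at `z₀` iff `f` vanishes on the orbit of `z₀`. -/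
lemma H69_apply_smul_eq_zero {K : ℤ} {f : ℍ → ℂ} (hf : IsMF N K f) (z₀ : ℍ)
    (h : ∀ x : CosetX N, tr N K f x z₀ = 0) (g : SL(2, ℤ)) : f (g • z₀) = 0 := by
  rw [slash_apply_eq f K g z₀, hf.slash_eq_tr g, h, zero_mul]

/-- Core of (G2). -/
lemma H69_coeff_eq_zero (z₀ : ℍ) (K l : ℤ) (s : Finset 𝔊.J) (c : 𝔊.J → ℂ)
    (G : 𝔊.J → ℍ → ℂ) (hG : ∀ j ∈ s, IsMF 1 (K - 𝔊.κ j) (G j)) (hG0 : ∀ j ∈ s, G j z₀ ≠ 0)
    (φ : ℍ → ℂ) (hφ : IsMF 1 l φ) (hφ0 : φ z₀ = 0) {a : ℂ} (ha : a ≠ 0)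
    (hlim : Tendsto φ atImInfty (𝓝 a))
    (hsimple : ∀ z : ℍ, φ z = 0 → deriv (φ ∘ ofComplex) z ≠ 0)
    (horbit : ∀ z : ℍ, φ z = 0 → ∃ g : SL(2, ℤ), g • z₀ = z)
    (hrel : ∑ j ∈ s, c j • 𝔊.vec j z₀ = 0) : ∀ j ∈ s, c j = 0 := by
  classical
  -- the form `f`
  set c' : 𝔊.J → ℂ := fun j => c j / G j z₀ with hc'
  set f : ℍ → ℂ := ∑ j ∈ s, c' j • (G j * 𝔊.F j) with hfdef
  have hGF : ∀ j ∈ s, IsMF N K (G j * 𝔊.F j) := fun j hj =>
    (((hG j hj).of_one (N := N)).mul (𝔊.isMF j)).cast (by ring)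
  have hf : IsMF N K f := IsMF.sum s fun j hj => (hGF j hj).smul (c' j)
  -- translates of `f`
  have htr : ∀ x : CosetX N, tr N K f x z₀ = 0 := by
    intro x
    have h1 : tr N K f x = ∑ j ∈ s, c' j • (G j * tr N (𝔊.κ j) (𝔊.F j) x) := by
      rw [hfdef, tr_sum]
      refine Finset.sum_congr rfl fun j hj => ?_
      rw [tr_smul]
      congr 1
      have h2 := tr_mul_of_one (N := N) (k := K - 𝔊.κ j) (l := 𝔊.κ j) (hG j hj) (𝔊.F j) x
      rwa [sub_add_cancel] at h2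
    rw [h1]
    have h3 := congrFun hrel x
    simp only [Finset.sum_apply, Pi.smul_apply, Pi.mul_apply, smul_eq_mul, Pi.zero_apply] at h3 ⊢
    rw [← h3]
    refine Finset.sum_congr rfl fun j hj => ?_
    simp only [hc', Gens.vec]
    field_simp [hG0 j hj]
  -- `f` vanishes at the zeros of `φ`
  have hzero : ∀ z : ℍ, φ z = 0 → f z = 0 := by
    intro z hz
    obtain ⟨g, rfl⟩ := horbit z hz
    exact H69_apply_smul_eq_zero hf z₀ htr g
  obtain ⟨h, hh, hfh⟩ := exists_isMF_mul_eq hf hφ ha hlim hsimple hzero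
  have hkey := 𝔊.exists_eq_mul_of_sum_eq_mul K l s c' G hG φ h hφ hh hfh
  intro j hj
  obtain ⟨Q, -, hQ⟩ := hkey j hj
  have h4 := congrFun hQ z₀
  simp only [Pi.smul_apply, Pi.mul_apply, smul_eq_mul, hφ0, zero_mul, hc'] at h4
  have h5 : c j / G j z₀ * G j z₀ = c j := div_mul_cancel₀ _ (hG0 j hj)
  rw [← h5, h4]

end Gens

end Fermat.Agent.S20
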